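import Fermat.Agent.RenyiTuran.Fejer
import Mathlib.Analysis.SpecialFunctions.Integrals.Basic
import Mathlib.MeasureTheory.Integral.Prod
import Mathlib.MeasureTheory.Integral.DominatedConvergence
import Mathlib.MeasureTheory.Group.Integral
import Mathlib.Analysis.Real.Pi.Bounds

/-!
# The smoothing inequality of Esseen

A finitely supported distribution and one with a density bounded by `m` differ by
`O (∫ |f - g| / |r| + m / T)`, the integral over `[-T, T]`, `f`, `g` the characteristic functions.
-/

set_option autoImplicit false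

noncomputable section

namespace FA.RenyiTuran

open MeasureTheory Set Filter Finset
open scoped Real Topology

variable {ι : Type*}

/-- The distribution function of the weights `w` at the points `X`. -/
def stepDist (s : Finset ι) (w X : ι → ℝ) (x : ℝ) : ℝ := ∑ i ∈ s, if X i ≤ x then w i else 0

/-- The distribution function of a density. -/
def densDist (p : ℝ → ℝ) (x : ℝ) : ℝ := ∫ y in Iic x, p y

/-- The characteristic function of the weights. -/
def charSum (s : Finset ι) (w X : ι → ℝ) (r : ℝ) : ℂ :=
  ∑ i ∈ s, (w i : ℂ) * Complex.exp ((r : ℂ) * Complex.I * (X i : ℂ))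

/-- The characteristic function of a density. -/
def charDens (p : ℝ → ℝ) (r : ℝ) : ℂ :=
  ∫ y, (p y : ℂ) * Complex.exp ((r : ℂ) * Complex.I * (y : ℂ))

theorem norm_exp_mul_I_mul (r y : ℝ) : ‖Complex.exp ((r : ℂ) * Complex.I * (y : ℂ))‖ = 1 := by
  rw [Complex.norm_exp]
  simp [Complex.mul_re]

/-- A probability density bounded by `m`. -/
structure DensityLE (p : ℝ → ℝ) (m : ℝ) : Prop where
  cont : Continuous p
  nonneg : ∀ y, 0 ≤ p y
  le : ∀ y, p y ≤ m
  integrable : Integrable p
  integral_eq : ∫ y, p y = 1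

theorem densDist_mem {p : ℝ → ℝ} {m : ℝ} (hp : DensityLE p m) (x : ℝ) :
    0 ≤ densDist p x ∧ densDist p x ≤ 1 :=
  ⟨setIntegral_nonneg measurableSet_Iic fun y _ => hp.nonneg y,
    hp.integral_eq ▸ setIntegral_le_integral hp.integrable (Eventually.of_forall hp.nonneg)⟩

theorem densDist_sub {p : ℝ → ℝ} {m : ℝ} (hp : DensityLE p m) (a b : ℝ) :
    densDist p b - densDist p a = ∫ y in a..b, p y :=
  intervalIntegral.integral_Iic_sub_Iic hp.integrable.integrableOn hp.integrable.integrableOn

theorem densDist_lipschitz {p : ℝ → ℝ} {m : ℝ} (hp : DensityLE p m) {a b : ℝ} (hab : a ≤ b) :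
    0 ≤ densDist p b - densDist p a ∧ densDist p b - densDist p a ≤ m * (b - a) := by
  rw [densDist_sub hp]
  refine ⟨intervalIntegral.integral_nonneg hab fun y _ => hp.nonneg y, ?_⟩
  refine (intervalIntegral.integral_mono_on hab (hp.cont.intervalIntegrable _ _)
    intervalIntegrable_const fun y _ => hp.le y).trans (le_of_eq ?_)
  rw [intervalIntegral.integral_const, smul_eq_mul, mul_comm]

theorem tendsto_densDist_atBot {p : ℝ → ℝ} {m : ℝ} (hp : DensityLE p m) :
    Tendsto (densDist p) atBot (𝓝 0) := by
  have h := intervalIntegral_tendsto_integral_Iic (0 : ℝ) hp.integrable.integrableOn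
    (tendsto_id : Tendsto (fun x : ℝ => x) atBot atBot)
  have h' := (tendsto_const_nhds (x := densDist p 0)).sub h
  rw [show densDist p 0 - ∫ y in Iic (0 : ℝ), p y = 0 from sub_self _] at h'
  refine h'.congr fun x => ?_
  rw [← densDist_sub hp]
  simp

theorem stepDist_mono (s : Finset ι) {w : ι → ℝ} (hw : ∀ i ∈ s, 0 ≤ w i) (X : ι → ℝ) :
    Monotone (stepDist s w X) := fun a b hab => sum_le_sum fun i hi => by
  split_ifs with h1 h2 h2
  · exact le_rfl
  · exact absurd (h1.trans hab) h2
  · exact hw i hi
  · exact le_rfl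

theorem stepDist_mem (s : Finset ι) {w : ι → ℝ} (hw : ∀ i ∈ s, 0 ≤ w i)
    (hw1 : ∑ i ∈ s, w i = 1) (X : ι → ℝ) (x : ℝ) :
    0 ≤ stepDist s w X x ∧ stepDist s w X x ≤ 1 := by
  refine ⟨sum_nonneg fun i hi => ?_, hw1 ▸ sum_le_sum fun i hi => ?_⟩ <;> split_ifs
  exacts [hw i hi, le_rfl, le_rfl, hw i hi]

theorem tendsto_stepDist_atBot (s : Finset ι) (w X : ι → ℝ) :
    Tendsto (stepDist s w X) atBot (𝓝 0) := by
  rw [← sum_const_zero (s := s)]
  refine tendsto_finsetSum _ fun i _ => tendsto_const_nhds.congr' ?_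
  filter_upwards [eventually_lt_atBot (X i)] with x hx
  rw [if_neg (not_le.2 hx)]

/-- The difference of the two distributions. -/
def distGap (s : Finset ι) (w X : ι → ℝ) (p : ℝ → ℝ) (x : ℝ) : ℝ :=
  stepDist s w X x - densDist p x

/-- It, smoothed by the kernel. -/
def smoothGap (T : ℝ) (s : Finset ι) (w X : ι → ℝ) (p : ℝ → ℝ) (x : ℝ) : ℝ :=
  ∫ y, fejer T y * distGap s w X p (x - y)

variable {s : Finset ι} {w X : ι → ℝ} {p : ℝ → ℝ} {m T : ℝ}

theorem abs_distGap_le (hw : ∀ i ∈ s, 0 ≤ w i) (hw1 : ∑ i ∈ s, w i = 1) (hp : DensityLE p m)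
    (x : ℝ) : |distGap s w X p x| ≤ 1 := by
  have h1 := stepDist_mem s hw hw1 X x
  have h2 := densDist_mem hp x
  rw [distGap, abs_le]
  constructor <;> linarith

theorem measurable_distGap (hw : ∀ i ∈ s, 0 ≤ w i) (hp : DensityLE p m) (x : ℝ) :
    Measurable fun y => distGap s w X p (x - y) :=
  ((stepDist_mono s hw X).measurable.comp (measurable_const.sub measurable_id)).sub
    ((Monotone.measurable fun a b hab => by
      linarith [(densDist_lipschitz hp hab).1] : Measurable (densDist p)).comp
        (measurable_const.sub measurable_id))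

theorem norm_fejer_mul_gap (hw : ∀ i ∈ s, 0 ≤ w i) (hw1 : ∑ i ∈ s, w i = 1)
    (hp : DensityLE p m) (hT : 0 < T) (x y : ℝ) :
    ‖fejer T y * distGap s w X p x‖ ≤ fejer T y := by
  rw [norm_mul, Real.norm_eq_abs, Real.norm_eq_abs, abs_of_nonneg (fejer_nonneg hT y)]
  exact mul_le_of_le_one_right (fejer_nonneg hT y) (abs_distGap_le hw hw1 hp x)

theorem integrable_smoothGap (hw : ∀ i ∈ s, 0 ≤ w i) (hw1 : ∑ i ∈ s, w i = 1)
    (hp : DensityLE p m) (hT : 0 < T) (x : ℝ) :
    Integrable fun y => fejer T y * distGap s w X p (x - y) :=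
  (integrable_fejer hT).mono'
    ((continuous_fejer T).measurable.mul (measurable_distGap hw hp x)).aestronglyMeasurable
    (Eventually.of_forall fun y => norm_fejer_mul_gap hw hw1 hp hT _ y)

theorem tendsto_smoothGap_atBot (hw : ∀ i ∈ s, 0 ≤ w i) (hw1 : ∑ i ∈ s, w i = 1)
    (hp : DensityLE p m) (hT : 0 < T) : Tendsto (smoothGap T s w X p) atBot (𝓝 0) := by
  rw [← integral_zero (α := ℝ) (G := ℝ) (μ := volume)]
  refine tendsto_integral_filter_of_dominated_convergence (fejer T)
    (Eventually.of_forall fun x => (integrable_smoothGap hw hw1 hp hT x).aestronglyMeasurable)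
    (Eventually.of_forall fun x => Eventually.of_forall fun y =>
      norm_fejer_mul_gap hw hw1 hp hT _ y)
    (integrable_fejer hT) (Eventually.of_forall fun y => ?_)
  have hsub : Tendsto (fun x : ℝ => x - y) atBot atBot := by
    simpa [sub_eq_add_neg] using tendsto_atBot_add_const_right atBot (-y) tendsto_id
  have h := ((tendsto_stepDist_atBot s w X).comp hsub).sub
    ((tendsto_densDist_atBot hp).comp hsub)
  rw [sub_zero] at h
  simpa [distGap] using h.const_mul (fejer T y)

/-- The smoothed jump of one point. -/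
theorem integral_fejer_mul_jump (T c : ℝ) {a b : ℝ} (hab : a ≤ b) :
    ∫ y, fejer T y * ((if c ≤ b - y then (1 : ℝ) else 0) - if c ≤ a - y then (1 : ℝ) else 0) =
      ∫ t in a..b, fejer T (t - c) := by
  rw [intervalIntegral.integral_comp_sub_right, intervalIntegral.integral_of_le (by linarith),
    ← integral_indicator measurableSet_Ioc]
  refine integral_congr_ae (Eventually.of_forall fun y => ?_)
  simp only [indicator_apply, Set.mem_Ioc]
  rcases le_or_gt c (b - y) with h1 | h1
  · rcases le_or_gt c (a - y) with h2 | h2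
    · rw [if_pos h1, if_pos h2, if_neg (fun h => by linarith [h.1]), sub_self, mul_zero]
    · rw [if_pos h1, if_neg (not_le.2 h2), if_pos ⟨by linarith, by linarith⟩, sub_zero, mul_one]
  · rw [if_neg (not_le.2 h1), if_neg (fun h => by linarith), if_neg (fun h => by linarith [h.2]),
      sub_self, mul_zero]

theorem continuous_charSum (s : Finset ι) (w X : ι → ℝ) : Continuous (charSum s w X) :=
  continuous_finsetSum _ fun i _ => by fun_prop

theorem continuous_charDens (hp : DensityLE p m) : Continuous (charDens p) :=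
  continuous_of_dominated (bound := p)
    (fun r => (Continuous.aestronglyMeasurable (by have := hp.cont; fun_prop)))
    (fun r => Eventually.of_forall fun y => le_of_eq (by
      rw [norm_mul, norm_exp_mul_I_mul, mul_one, Complex.norm_real, Real.norm_eq_abs,
        abs_of_nonneg (hp.nonneg y)]))
    hp.integrable (Eventually.of_forall fun y => by fun_prop)

/-- `v` as the transform of the tent, normalised. -/
theorem fejer_eq_integral (hT : 0 < T) (u : ℝ) :
    (fejer T u : ℂ) = (((2 * π)⁻¹ : ℝ) : ℂ) *
      ∫ r in (-T)..T, (tent T r : ℂ) * Complex.exp (-((u : ℂ) * Complex.I) * (r : ℂ)) := by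
  rw [integral_tent hT u, ← Complex.ofReal_mul]
  congr 1
  have := Real.pi_pos
  field_simp

/-- The density of the smoothed difference, by inversion. -/
theorem smoothDensity_eq (hp : DensityLE p m) (hT : 0 < T) (t : ℝ) :
    (((∑ i ∈ s, w i * fejer T (t - X i)) - ∫ y, fejer T (t - y) * p y : ℝ) : ℂ) =
      (((2 * π)⁻¹ : ℝ) : ℂ) * ∫ r in (-T)..T, (tent T r : ℂ) *
        (charSum s w X r - charDens p r) * Complex.exp (-((t : ℂ) * Complex.I) * (r : ℂ)) := by
  have hc : ∀ c : ℝ, Continuous fun r : ℝ =>
      (tent T r : ℂ) * Complex.exp (-(((t - c : ℝ) : ℂ) * Complex.I) * (r : ℂ)) := fun c => by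
    unfold tent
    fun_prop
  have e : ∀ c r : ℝ, Complex.exp (-(((t - c : ℝ) : ℂ) * Complex.I) * (r : ℂ)) =
      Complex.exp (-((t : ℂ) * Complex.I) * (r : ℂ)) *
        Complex.exp ((r : ℂ) * Complex.I * (c : ℂ)) := fun c r => by
    rw [← Complex.exp_add]
    push_cast
    ring_nf
  have hS : ((∑ i ∈ s, w i * fejer T (t - X i) : ℝ) : ℂ) = (((2 * π)⁻¹ : ℝ) : ℂ) *
      ∫ r in (-T)..T, (tent T r : ℂ) * charSum s w X r *
        Complex.exp (-((t : ℂ) * Complex.I) * (r : ℂ)) := by
    rw [Complex.ofReal_sum]
    simp only [Complex.ofReal_mul, fejer_eq_integral hT]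
    rw [show (fun r : ℝ => (tent T r : ℂ) * charSum s w X r *
        Complex.exp (-((t : ℂ) * Complex.I) * (r : ℂ))) = fun r => ∑ i ∈ s, (w i : ℂ) *
        ((tent T r : ℂ) * Complex.exp (-(((t - X i : ℝ) : ℂ) * Complex.I) * (r : ℂ))) from
      funext fun r => by
        rw [charSum, Finset.mul_sum, Finset.sum_mul]
        refine sum_congr rfl fun i _ => ?_
        rw [e]
        ring,
      intervalIntegral.integral_finsetSum fun i _ =>
        ((hc (X i)).intervalIntegrable _ _).const_mul _, Finset.mul_sum]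
    refine sum_congr rfl fun i _ => ?_
    rw [intervalIntegral.integral_const_mul]
    ring
  have hP : ((∫ y, fejer T (t - y) * p y : ℝ) : ℂ) = (((2 * π)⁻¹ : ℝ) : ℂ) *
      ∫ r in (-T)..T, (tent T r : ℂ) * charDens p r *
        Complex.exp (-((t : ℂ) * Complex.I) * (r : ℂ)) := by
    rw [← integral_complex_ofReal]
    simp only [Complex.ofReal_mul, fejer_eq_integral hT]
    rw [show (fun y : ℝ => (((2 * π)⁻¹ : ℝ) : ℂ) * (∫ r in (-T)..T, (tent T r : ℂ) *
        Complex.exp (-(((t - y : ℝ) : ℂ) * Complex.I) * (r : ℂ))) * (p y : ℂ)) =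
        fun y => (((2 * π)⁻¹ : ℝ) : ℂ) * ∫ r in (-T)..T, (p y : ℂ) * ((tent T r : ℂ) *
        Complex.exp (-(((t - y : ℝ) : ℂ) * Complex.I) * (r : ℂ))) from funext fun y => by
      rw [intervalIntegral.integral_const_mul]
      ring, integral_const_mul, ← intervalIntegral_integral_swap
        (f := fun r y => (p y : ℂ) * ((tent T r : ℂ) *
          Complex.exp (-(((t - y : ℝ) : ℂ) * Complex.I) * (r : ℂ)))) ?_]
    · congr 1
      refine intervalIntegral.integral_congr fun r _ => ?_
      rw [charDens, ← integral_const_mul, ← integral_mul_const]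
      refine integral_congr_ae (Eventually.of_forall fun y => ?_)
      simp only
      rw [e]
      ring
    · have : IsFiniteMeasure (volume.restrict (uIoc (-T) T)) := ⟨by simp [uIoc]⟩
      refine ((integrable_const (1 : ℝ)).mul_prod hp.integrable).mono'
        (Continuous.aestronglyMeasurable (by have := hp.cont; unfold tent; fun_prop)) ?_
      refine (Measure.ae_prod_iff_ae_ae ?_).2 ?_
      · exact measurableSet_le (Continuous.measurable (by
          have := hp.cont; unfold tent; fun_prop)) (Continuous.measurable (by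
          have := hp.cont; fun_prop))
      refine (ae_restrict_iff' measurableSet_uIoc).2 (Eventually.of_forall fun r hr => ?_)
      refine Eventually.of_forall fun y => ?_
      rw [uIoc_of_le (by linarith)] at hr
      have hm := tent_mem hT (Ioc_subset_Icc_self hr)
      simp only [Function.uncurry_apply_pair, one_mul]
      rw [e, norm_mul, norm_mul, norm_mul, norm_exp_mul_I_mul, mul_one, Complex.norm_real,
        Complex.norm_real, Real.norm_eq_abs, Real.norm_eq_abs, abs_of_nonneg (hp.nonneg y),
        abs_of_nonneg hm.1, show ‖Complex.exp (-((t : ℂ) * Complex.I) * (r : ℂ))‖ = 1 by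
          rw [Complex.norm_exp]; simp [Complex.mul_re], mul_one]
      exact mul_le_of_le_one_right (hp.nonneg y) hm.2
  have hcS := continuous_charSum s w X
  have hcP := continuous_charDens hp
  rw [Complex.ofReal_sub, hS, hP, ← mul_sub, ← intervalIntegral.integral_sub
    (Continuous.intervalIntegrable (by unfold tent; fun_prop) _ _)
    (Continuous.intervalIntegrable (by unfold tent; fun_prop) _ _)]
  congr 1
  exact intervalIntegral.integral_congr fun r _ => by ring

theorem smoothGap_sub_eq (hw : ∀ i ∈ s, 0 ≤ w i) (hw1 : ∑ i ∈ s, w i = 1)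
    (hp : DensityLE p m) (hT : 0 < T) {a b : ℝ} (hab : a ≤ b) :
    smoothGap T s w X p b - smoothGap T s w X p a =
      ∫ t in a..b, ((∑ i ∈ s, w i * fejer T (t - X i)) - ∫ y, fejer T (t - y) * p y) := by
  have hm : 0 ≤ m := (hp.nonneg 0).trans (hp.le 0)
  have hfi := integrable_fejer hT
  have hjump : ∀ i, Integrable fun y => fejer T y *
      ((if X i ≤ b - y then (1 : ℝ) else 0) - if X i ≤ a - y then (1 : ℝ) else 0) := fun i => by
    refine hfi.mono' ((continuous_fejer T).measurable.mul ?_).aestronglyMeasurable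
      (Eventually.of_forall fun y => ?_)
    · exact (Measurable.ite (measurableSet_le measurable_const (measurable_const.sub measurable_id))
        measurable_const measurable_const).sub (Measurable.ite (measurableSet_le measurable_const
        (measurable_const.sub measurable_id)) measurable_const measurable_const)
    · rw [norm_mul, Real.norm_eq_abs, Real.norm_eq_abs, abs_of_nonneg (fejer_nonneg hT y)]
      refine mul_le_of_le_one_right (fejer_nonneg hT y) ?_
      split_ifs <;> norm_num
  have hint : Integrable (Function.uncurry fun t y : ℝ => fejer T y * p (t - y))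
      ((volume.restrict (uIoc a b)).prod volume) := by
    have : IsFiniteMeasure (volume.restrict (uIoc a b)) := ⟨by simp [uIoc]⟩
    refine ((integrable_const m).mul_prod hfi).mono' (Continuous.aestronglyMeasurable
      (by have := hp.cont; have := continuous_fejer T; fun_prop))
      (Eventually.of_forall fun z => ?_)
    simp only [Function.uncurry_def]
    rw [norm_mul, Real.norm_eq_abs, Real.norm_eq_abs, abs_of_nonneg (fejer_nonneg hT _),
      abs_of_nonneg (hp.nonneg _), mul_comm]
    exact mul_le_mul_of_nonneg_right (hp.le _) (fejer_nonneg hT _)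
  have hdens : Integrable fun y => fejer T y * ∫ t in a..b, p (t - y) := by
    refine (hint.integral_prod_right).congr (Eventually.of_forall fun y => ?_)
    simp only [Function.uncurry_apply_pair, intervalIntegral.integral_of_le hab, uIoc_of_le hab]
    rw [integral_const_mul]
  have e : ∀ y, fejer T y * distGap s w X p (b - y) - fejer T y * distGap s w X p (a - y) =
      (∑ i ∈ s, w i * (fejer T y *
        ((if X i ≤ b - y then (1 : ℝ) else 0) - if X i ≤ a - y then (1 : ℝ) else 0))) -
      fejer T y * ∫ t in a..b, p (t - y) := fun y => by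
    rw [intervalIntegral.integral_comp_sub_right, ← densDist_sub hp, distGap, distGap, stepDist,
      stepDist]
    rw [sum_congr rfl fun i _ => show w i * (fejer T y *
      ((if X i ≤ b - y then (1 : ℝ) else 0) - if X i ≤ a - y then (1 : ℝ) else 0)) =
      fejer T y * (if X i ≤ b - y then w i else 0) -
        fejer T y * (if X i ≤ a - y then w i else 0) by split_ifs <;> ring, sum_sub_distrib,
      ← Finset.mul_sum, ← Finset.mul_sum]
    ring
  rw [smoothGap, smoothGap, ← integral_sub (integrable_smoothGap hw hw1 hp hT b)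
    (integrable_smoothGap hw hw1 hp hT a), integral_congr_ae (Eventually.of_forall e),
    integral_sub (integrable_finsetSum _ fun i _ => (hjump i).const_mul _) hdens,
    integral_finsetSum _ fun i _ => (hjump i).const_mul _]
  have hflip : ∀ t, ∫ y, fejer T (t - y) * p y = ∫ y, fejer T y * p (t - y) := fun t => by
    rw [← integral_sub_left_eq_self (fun y => fejer T y * p (t - y)) volume t]
    simp
  simp only [hflip]
  have hsc : ∀ i, Continuous fun t => w i * fejer T (t - X i) := fun i => by
    have := continuous_fejer T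
    fun_prop
  rw [intervalIntegral.integral_sub
    ((continuous_finsetSum _ fun i _ => hsc i).intervalIntegrable _ _) ?_,
    intervalIntegral.integral_finsetSum fun i _ => (hsc i).intervalIntegrable _ _]
  · congr 1
    · refine sum_congr rfl fun i _ => ?_
      rw [integral_const_mul, integral_fejer_mul_jump T (X i) hab,
        intervalIntegral.integral_const_mul]
    · rw [intervalIntegral_integral_swap hint]
      simp only [intervalIntegral.integral_const_mul]
  · have h := hint.integral_prod_left
    rw [uIoc_of_le hab] at h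
    exact (intervalIntegrable_iff_integrableOn_Ioc_of_le hab).2 h

/-- **The smoothed difference**, by the characteristic functions. -/
theorem abs_smoothGap_sub_le (hw : ∀ i ∈ s, 0 ≤ w i) (hw1 : ∑ i ∈ s, w i = 1)
    (hp : DensityLE p m) (hT : 0 < T) {B : ℝ → ℝ} (hB : IntervalIntegrable B volume (-T) T)
    (hB0 : ∀ r, 0 ≤ B r)
    (hfg : ∀ r, |r| ≤ T → ‖charSum s w X r - charDens p r‖ ≤ |r| * B r) {a b : ℝ} (hab : a ≤ b) :
    |smoothGap T s w X p b - smoothGap T s w X p a| ≤ (∫ r in (-T)..T, B r) / π := by
  have hcS := continuous_charSum s w X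
  have hcP := continuous_charDens hp
  rw [← Real.norm_eq_abs, ← Complex.norm_real, smoothGap_sub_eq hw hw1 hp hT hab,
    ← intervalIntegral.integral_ofReal]
  simp only [smoothDensity_eq hp hT]
  rw [intervalIntegral.integral_const_mul, intervalIntegral_intervalIntegral_swap ?_, norm_mul,
    Complex.norm_real, Real.norm_eq_abs, abs_of_pos (by positivity)]
  · refine le_of_le_of_eq (mul_le_mul_of_nonneg_left ((intervalIntegral.norm_integral_le_of_norm_le
      (by linarith) (ae_of_all _ fun r hr => ?_) (hB.const_mul 2)).trans (le_of_eq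
        (intervalIntegral.integral_const_mul 2 _))) (by positivity)) ?_
    · rw [intervalIntegral.integral_const_mul, norm_mul, Complex.norm_mul, Complex.norm_real,
        Real.norm_eq_abs]
      have hm := tent_mem hT (Ioc_subset_Icc_self hr)
      rw [abs_of_nonneg hm.1]
      have h1 := hfg r (abs_le.2 (Ioc_subset_Icc_self hr))
      rcases eq_or_ne r 0 with rfl | hr0
      · rw [abs_zero, zero_mul, norm_le_zero_iff] at h1
        rw [h1, norm_zero, mul_zero, zero_mul]
        exact mul_nonneg zero_le_two (hB0 0)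
      · have hrc : (-((r : ℂ) * Complex.I)) ≠ 0 :=
          neg_ne_zero.2 (mul_ne_zero (Complex.ofReal_ne_zero.2 hr0) Complex.I_ne_zero)
        have h2 : ‖∫ t in a..b, Complex.exp (-((t : ℂ) * Complex.I) * (r : ℂ))‖ ≤ 2 / |r| := by
          rw [show (fun t : ℝ => Complex.exp (-((t : ℂ) * Complex.I) * (r : ℂ))) =
              fun t : ℝ => Complex.exp (-((r : ℂ) * Complex.I) * (t : ℂ)) from
            funext fun t => by ring_nf, integral_exp_mul_complex hrc, norm_div, norm_neg,
            norm_mul, Complex.norm_I, mul_one, Complex.norm_real, Real.norm_eq_abs]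
          refine div_le_div_of_nonneg_right ((norm_sub_le _ _).trans (le_of_eq ?_)) (abs_nonneg r)
          rw [Complex.norm_exp, Complex.norm_exp]
          simp [Complex.mul_re]
          norm_num
        calc tent T r * ‖charSum s w X r - charDens p r‖ *
              ‖∫ t in a..b, Complex.exp (-((t : ℂ) * Complex.I) * (r : ℂ))‖
            ≤ 1 * (|r| * B r) * (2 / |r|) := by
              have := hB0 r
              gcongr
              exact hm.2
          _ = 2 * B r := by
              have := abs_pos.2 hr0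
              field_simp
    · ring
  · refine (Continuous.continuousOn (by unfold tent; fun_prop)).integrableOn_compact
      (isCompact_uIcc.prod isCompact_uIcc) |>.mono_set
        (Set.prod_mono uIoc_subset_uIcc uIoc_subset_uIcc)

theorem abs_smoothGap_le (hw : ∀ i ∈ s, 0 ≤ w i) (hw1 : ∑ i ∈ s, w i = 1)
    (hp : DensityLE p m) (hT : 0 < T) {B : ℝ → ℝ} (hB : IntervalIntegrable B volume (-T) T)
    (hB0 : ∀ r, 0 ≤ B r)
    (hfg : ∀ r, |r| ≤ T → ‖charSum s w X r - charDens p r‖ ≤ |r| * B r) (x : ℝ) :
    |smoothGap T s w X p x| ≤ (∫ r in (-T)..T, B r) / π := by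
  have h := ((tendsto_const_nhds (x := smoothGap T s w X p x)).sub
    (tendsto_smoothGap_atBot hw hw1 hp hT (X := X))).abs
  rw [sub_zero] at h
  exact le_of_tendsto h ((eventually_le_atBot x).mono fun a ha =>
    abs_smoothGap_sub_le hw hw1 hp hT hB hB0 hfg ha)

/-- A function that is large near `0` has a large smoothing. -/
theorem le_integral_fejer_mul (hT : 0 < T) {g : ℝ → ℝ} (hg : Measurable g) {δ h : ℝ}
    (hδ : 0 ≤ δ) (hh : 0 < h) (hgb : ∀ y, |g y| ≤ δ) (hgh : ∀ y, |y| ≤ h → δ / 4 ≤ g y) :
    δ / 16 - 5 * δ / (T * h) ≤ ∫ y, fejer T y * g y := by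
  have hfi := integrable_fejer hT
  have hti := (integrable_inv_sq_add_sq hh).const_mul (5 * δ / 4 * (4 / (π * T)))
  have hgi : Integrable fun y => fejer T y * g y :=
    (hfi.mul_const δ).mono' ((continuous_fejer T).measurable.mul hg).aestronglyMeasurable
      (Eventually.of_forall fun y => by
        rw [norm_mul, Real.norm_eq_abs, Real.norm_eq_abs, abs_of_nonneg (fejer_nonneg hT y)]
        exact mul_le_mul_of_nonneg_left (hgb y) (fejer_nonneg hT y))
  refine le_trans ?_ (integral_mono (f := fun y => δ / 4 * fejer T y -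
    5 * δ / 4 * (4 / (π * T)) * (h ^ 2 + y ^ 2)⁻¹) ((hfi.const_mul (δ / 4)).sub hti) hgi
      fun y => ?_)
  · rw [integral_sub (hfi.const_mul _) hti, integral_const_mul, integral_const_mul,
      integral_inv_sq_add_sq hh]
    have h1 := mul_le_mul_of_nonneg_left (quarter_le_integral_fejer hT)
      (show 0 ≤ δ / 4 by positivity)
    have h2 : 5 * δ / 4 * (4 / (π * T)) * (π / h) = 5 * δ / (T * h) := by
      have := Real.pi_pos
      field_simp
    linarith
  · rcases le_or_gt |y| h with hy | hy
    · have := mul_le_mul_of_nonneg_left (hgh y hy) (fejer_nonneg hT y)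
      have : 0 ≤ 5 * δ / 4 * (4 / (π * T)) * (h ^ 2 + y ^ 2)⁻¹ := by positivity
      linarith
    · have h1 := mul_le_mul_of_nonneg_left (abs_le.1 (hgb y)).1 (fejer_nonneg hT y)
      have h2 := mul_le_mul_of_nonneg_left (fejer_le_tail hT hh hy.le)
        (show 0 ≤ 5 * δ / 4 by positivity)
      linarith

/-- **The smoothing inequality of Esseen.** -/
theorem esseen_smoothing_le (hw : ∀ i ∈ s, 0 ≤ w i) (hw1 : ∑ i ∈ s, w i = 1)
    (hp : DensityLE p m) (hm : 0 < m) (hT : 0 < T) {B : ℝ → ℝ}
    (hB : IntervalIntegrable B volume (-T) T) (hB0 : ∀ r, 0 ≤ B r)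
    (hfg : ∀ r, |r| ≤ T → ‖charSum s w X r - charDens p r‖ ≤ |r| * B r) (x : ℝ) :
    |stepDist s w X x - densDist p x| ≤ 6 * (∫ r in (-T)..T, B r) + 320 * m / T := by
  have hI : 0 ≤ ∫ r in (-T)..T, B r :=
    intervalIntegral.integral_nonneg (by linarith) fun r _ => hB0 r
  obtain ⟨δ, hδ⟩ : ∃ δ, δ = ⨆ y, |distGap s w X p y| := ⟨_, rfl⟩
  have hbdd : BddAbove (Set.range fun y => |distGap s w X p y|) :=
    ⟨1, by rintro _ ⟨y, rfl⟩; exact abs_distGap_le hw hw1 hp y⟩
  have hle : ∀ y, |distGap s w X p y| ≤ δ := fun y => hδ ▸ le_ciSup hbdd y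
  refine (hle x).trans ?_
  rcases le_or_gt δ 0 with hδ0 | hδ0
  · exact hδ0.trans (by positivity)
  obtain ⟨h, hh⟩ : ∃ h, h = δ / (4 * m) := ⟨_, rfl⟩
  have hh0 : 0 < h := hh ▸ by positivity
  have hmh : m * (2 * h) = δ / 2 := by
    rw [hh]
    field_simp
    ring
  obtain ⟨x0, hx0⟩ := exists_lt_of_lt_ciSup (show 3 / 4 * δ < ⨆ y, |distGap s w X p y| by
    rw [← hδ]; linarith)
  obtain ⟨x1, σ, hσ, hnear⟩ : ∃ x1 σ : ℝ, |σ| = 1 ∧
      ∀ y, |y| ≤ h → δ / 4 ≤ σ * distGap s w X p (x1 - y) := by
    rcases le_or_gt 0 (distGap s w X p x0) with h0 | h0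
    · refine ⟨x0 + h, 1, abs_one, fun y hy => ?_⟩
      rw [abs_of_nonneg h0] at hx0
      obtain ⟨hy1, hy2⟩ := abs_le.1 hy
      have h1 := stepDist_mono s hw X (show x0 ≤ x0 + h - y by linarith)
      have h2 := (densDist_lipschitz hp (show x0 ≤ x0 + h - y by linarith)).2
      have h3 := mul_le_mul_of_nonneg_left (show x0 + h - y - x0 ≤ 2 * h by linarith) hm.le
      simp only [distGap, one_mul] at hx0 ⊢
      linarith
    · refine ⟨x0 - h, -1, by norm_num, fun y hy => ?_⟩
      rw [abs_of_neg h0] at hx0
      obtain ⟨hy1, hy2⟩ := abs_le.1 hy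
      have h1 := stepDist_mono s hw X (show x0 - h - y ≤ x0 by linarith)
      have h2 := (densDist_lipschitz hp (show x0 - h - y ≤ x0 by linarith)).2
      have h3 := mul_le_mul_of_nonneg_left (show x0 - (x0 - h - y) ≤ 2 * h by linarith) hm.le
      simp only [distGap] at hx0 ⊢
      linarith
  have hlow := le_integral_fejer_mul hT (g := fun y => σ * distGap s w X p (x1 - y))
    ((measurable_distGap hw hp x1).const_mul σ) hδ0.le hh0
    (fun y => by rw [abs_mul, hσ, one_mul]; exact hle _) hnear
  rw [show (fun y => fejer T y * (σ * distGap s w X p (x1 - y))) =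
    fun y => σ * (fejer T y * distGap s w X p (x1 - y)) from funext fun y => by ring,
    integral_const_mul] at hlow
  have hup := abs_smoothGap_le hw hw1 hp hT hB hB0 hfg x1 (X := X)
  have hsm : σ * smoothGap T s w X p x1 ≤ |smoothGap T s w X p x1| := by
    refine (le_abs_self _).trans (le_of_eq ?_)
    rw [abs_mul, hσ, one_mul]
  rw [← smoothGap] at hlow
  have e : 5 * δ / (T * h) = 20 * m / T := by
    rw [hh]
    field_simp
    ring
  have hπ : 16 * ((∫ r in (-T)..T, B r) / π) ≤ 6 * (∫ r in (-T)..T, B r) := by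
    rw [mul_div_assoc', div_le_iff₀ Real.pi_pos]
    nlinarith [Real.pi_gt_three]
  rw [show 320 * m / T = 16 * (20 * m / T) by ring]
  linarith

end FA.RenyiTuran

end
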