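import Fermat.Agent.SatheSelberg.Main
import Fermat.Agent.ErdosKac.Turan
import Fermat.Agent.RenyiTuran.Smoothing
import Mathlib.Probability.Distributions.Gaussian.Real
import Mathlib.MeasureTheory.Measure.CharacteristicFunction.Basic

/-!
# The characteristic function of the number of prime divisors

With `l = log log N` the characteristic function of `(ω n - l) / √l`, `n ≤ N`, differs from
`e ^ (-r² / 2)` by `|r| B r` for `|r| ≤ √l`, where the integral of `B` over `|r| ≤ √l` is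
`O (1 / √l)`.
-/

set_option autoImplicit false

noncomputable section

namespace FA.RenyiTuran

open MeasureTheory Finset Filter
open FA.SatheSelberg (loglog omegaSum omegaPow selConst one_le_loglog)
open scoped Real Topology

/-- The standard normal density. -/
def normPdf (y : ℝ) : ℝ := Real.exp (-y ^ 2 / 2) / √(2 * π)

theorem normPdf_eq_gaussianPDFReal : normPdf = ProbabilityTheory.gaussianPDFReal 0 1 :=
  funext fun y => by simp [normPdf, ProbabilityTheory.gaussianPDFReal, div_eq_inv_mul]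

theorem one_le_sqrt_two_pi : 1 ≤ √(2 * π) :=
  Real.one_le_sqrt.2 (by linarith [Real.two_le_pi])

theorem normPdf_le (y : ℝ) : normPdf y ≤ 1 := by
  rw [normPdf, div_le_one (by linarith [one_le_sqrt_two_pi])]
  exact (Real.exp_le_one_iff.2 (by nlinarith)).trans one_le_sqrt_two_pi

theorem densityLE_normPdf : DensityLE normPdf 1 where
  cont := by
    unfold normPdf
    fun_prop
  nonneg y := by
    unfold normPdf
    positivity
  le := normPdf_le
  integrable := normPdf_eq_gaussianPDFReal ▸ ProbabilityTheory.integrable_gaussianPDFReal 0 1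
  integral_eq := by
    rw [normPdf_eq_gaussianPDFReal]
    exact ProbabilityTheory.integral_gaussianPDFReal_eq_one 0 one_ne_zero

theorem charDens_normPdf (r : ℝ) :
    charDens normPdf r = ((Real.exp (-r ^ 2 / 2) : ℝ) : ℂ) := by
  have h := ProbabilityTheory.charFun_gaussianReal (μ := 0) (v := 1) r
  rw [charFun_apply_real,
    ProbabilityTheory.integral_gaussianReal_eq_integral_smul one_ne_zero] at h
  refine Eq.trans ?_ (h.trans ?_)
  · refine integral_congr_ae (Eventually.of_forall fun y => ?_)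
    simp only [normPdf_eq_gaussianPDFReal, Complex.real_smul]
    ring_nf
  · push_cast
    ring_nf

/-- The standardised value of `ω`. -/
def stdOmega (N n : ℕ) : ℝ := ((n.primeFactors.card : ℝ) - loglog N) / √(loglog N)

/-- Its distribution function over `n ≤ N`. -/
def omegaDist (N : ℕ) (x : ℝ) : ℝ :=
  stepDist (Icc 1 N) (fun _ => (N : ℝ)⁻¹) (stdOmega N) x

theorem omegaDist_eq (N : ℕ) (x : ℝ) :
    omegaDist N x = (((Icc 1 N).filter fun n => stdOmega N n ≤ x).card : ℝ) / N := by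
  rw [omegaDist, stepDist, ← sum_filter, sum_const, nsmul_eq_mul, div_eq_mul_inv]

theorem sum_inv_natCast {N : ℕ} (hN : 0 < N) : ∑ _n ∈ Icc 1 N, (N : ℝ)⁻¹ = 1 := by
  rw [sum_const, Nat.card_Icc, nsmul_eq_mul, Nat.add_sub_cancel,
    mul_inv_cancel₀ (Nat.cast_ne_zero.2 hN.ne')]

/-- `e ^ (i t) = 1 + i t - t² / 2 + O (t³)`. -/
theorem norm_circle_expansion {t : ℝ} (ht : |t| ≤ 1) :
    ‖Complex.exp ((t : ℂ) * Complex.I) - 1 - (t : ℂ) * Complex.I + ((t ^ 2 / 2 : ℝ) : ℂ)‖ ≤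
      |t| ^ 3 * (2 / 9) := by
  have hn : ‖(t : ℂ) * Complex.I‖ = |t| := by simp
  have h := Complex.exp_bound (x := (t : ℂ) * Complex.I) (hn ▸ ht) (n := 3) (by norm_num)
  rw [hn] at h
  refine le_of_eq_of_le (congrArg norm ?_) (h.trans (le_of_eq ?_))
  · simp only [sum_range_succ, sum_range_zero, Nat.factorial, zero_add, pow_zero, pow_one]
    push_cast
    rw [mul_pow, Complex.I_sq]
    ring
  · norm_num [Nat.factorial]

/-- **The saddle against the Gaussian.** -/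
theorem norm_saddle_sub_gauss_le {l t : ℝ} (hl : 0 ≤ l) (ht : |t| ≤ 1) :
    ‖Complex.exp ((l : ℂ) * (Complex.exp ((t : ℂ) * Complex.I) - 1 - (t : ℂ) * Complex.I))‖ ≤
        Real.exp (-(l * t ^ 2) / 4) ∧
      ‖Complex.exp ((l : ℂ) * (Complex.exp ((t : ℂ) * Complex.I) - 1 - (t : ℂ) * Complex.I)) -
          ((Real.exp (-(l * t ^ 2) / 2) : ℝ) : ℂ)‖ ≤
        l * |t| ^ 3 * Real.exp (-(l * t ^ 2) / 4) := by
  obtain ⟨D, hD⟩ : ∃ D : ℂ, D = (l : ℂ) * (Complex.exp ((t : ℂ) * Complex.I) - 1 -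
    (t : ℂ) * Complex.I + ((t ^ 2 / 2 : ℝ) : ℂ)) := ⟨_, rfl⟩
  have hDn : ‖D‖ ≤ l * |t| ^ 3 * (2 / 9) := by
    rw [hD, norm_mul, Complex.norm_real, Real.norm_eq_abs, abs_of_nonneg hl, mul_assoc]
    exact mul_le_mul_of_nonneg_left (norm_circle_expansion ht) hl
  have h3 : l * |t| ^ 3 ≤ l * t ^ 2 := by
    refine mul_le_mul_of_nonneg_left ?_ hl
    rw [show |t| ^ 3 = t ^ 2 * |t| by rw [← sq_abs]; ring]
    exact mul_le_of_le_one_right (sq_nonneg t) ht
  have h2 : 0 ≤ l * t ^ 2 := by positivity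
  have hexp : Real.exp (-(l * t ^ 2) / 2) * Real.exp ‖D‖ ≤ Real.exp (-(l * t ^ 2) / 4) := by
    rw [← Real.exp_add]
    exact Real.exp_le_exp.2 (by linarith)
  rw [show (l : ℂ) * (Complex.exp ((t : ℂ) * Complex.I) - 1 - (t : ℂ) * Complex.I) =
      ((-(l * t ^ 2) / 2 : ℝ) : ℂ) + D by rw [hD]; push_cast; ring,
    Complex.exp_add, Complex.ofReal_exp]
  refine ⟨?_, ?_⟩
  · rw [norm_mul, ← Complex.ofReal_exp, Complex.norm_real, Real.norm_eq_abs,
      abs_of_pos (Real.exp_pos _)]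
    exact (mul_le_mul_of_nonneg_left (Complex.norm_exp_le_exp_norm D) (Real.exp_pos _).le).trans
      hexp
  · have h := Complex.norm_exp_sub_sum_le_norm_mul_exp D 1
    rw [sum_range_one, pow_zero, Nat.factorial_zero, Nat.cast_one, div_one, pow_one] at h
    rw [← mul_sub_one, norm_mul, ← Complex.ofReal_exp, Complex.norm_real, Real.norm_eq_abs,
      abs_of_pos (Real.exp_pos _)]
    calc Real.exp (-(l * t ^ 2) / 2) * ‖Complex.exp D - 1‖
        ≤ Real.exp (-(l * t ^ 2) / 2) * (l * |t| ^ 3 * Real.exp ‖D‖) := by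
          refine mul_le_mul_of_nonneg_left (h.trans (mul_le_mul_of_nonneg_right ?_
            (Real.exp_pos _).le)) (Real.exp_pos _).le
          exact hDn.trans (mul_le_of_le_one_right (by positivity) (by norm_num))
      _ = l * |t| ^ 3 * (Real.exp (-(l * t ^ 2) / 2) * Real.exp ‖D‖) := by ring
      _ ≤ _ := mul_le_mul_of_nonneg_left hexp (by positivity)

/-- `z φ z = 1 + O (|t|)` at `z = e ^ (i t)`. -/
theorem exists_circle_lipschitz : ∃ K : ℝ, 0 < K ∧ ∀ t : ℝ,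
    ‖Complex.exp ((t : ℂ) * Complex.I) * selConst (Complex.exp ((t : ℂ) * Complex.I)) - 1‖ ≤
      K * |t| := by
  obtain ⟨K, hK, hT⟩ := SatheSelberg.exists_selConst_taylor 1
  refine ⟨2 * K + ‖deriv selConst 1‖ + 1, by positivity, fun t => ?_⟩
  obtain ⟨z, hz⟩ : ∃ z, z = Complex.exp ((t : ℂ) * Complex.I) := ⟨_, rfl⟩
  have hzn : ‖z‖ = 1 := hz ▸ Complex.norm_exp_ofReal_mul_I t
  have hz1 : ‖z - 1‖ ≤ |t| := by
    rw [hz, mul_comm]
    exact Real.norm_exp_I_mul_ofReal_sub_one_le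
  have hz2 : ‖z - 1‖ ≤ 2 := (norm_sub_le _ _).trans (by rw [hzn, norm_one]; norm_num)
  have h1 : selConst 1 = 1 := by
    rw [← Complex.ofReal_one, SatheSelberg.selConst_ofReal, SatheSelberg.selbergProduct_one,
      show (1 : ℝ) + 1 = 2 by norm_num, Real.Gamma_two, div_one]
  have h := hT z 1 hzn.le norm_one.le
  rw [h1] at h
  rw [← hz, show z * selConst z - 1 = z * (selConst z - (1 + deriv selConst 1 * (z - 1))) +
    z * (deriv selConst 1 * (z - 1)) + (z - 1) by ring]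
  refine (norm_add_le _ _).trans ((add_le_add_left (norm_add_le _ _) _).trans ?_)
  rw [norm_mul, norm_mul, norm_mul, hzn, one_mul, one_mul]
  calc ‖selConst z - (1 + deriv selConst 1 * (z - 1))‖ + ‖deriv selConst 1‖ * ‖z - 1‖ + ‖z - 1‖
      ≤ K * (2 * |t|) + ‖deriv selConst 1‖ * |t| + |t| := by
        refine add_le_add (add_le_add (h.trans (mul_le_mul_of_nonneg_left ?_ hK.le))
          (mul_le_mul_of_nonneg_left hz1 (norm_nonneg _))) hz1
        rw [sq]
        exact mul_le_mul hz2 hz1 (norm_nonneg _) zero_le_two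
    _ = _ := by ring

theorem charSum_eq (N : ℕ) (r : ℝ) :
    charSum (Icc 1 N) (fun _ => (N : ℝ)⁻¹) (stdOmega N) r = (N : ℂ)⁻¹ *
      (Complex.exp (-((r / √(loglog N) * loglog N : ℝ) : ℂ) * Complex.I) *
        omegaSum (Complex.exp (((r / √(loglog N) : ℝ) : ℂ) * Complex.I)) N) := by
  rw [charSum, omegaSum, Finset.mul_sum, Finset.mul_sum]
  refine sum_congr rfl fun n _ => ?_
  rw [omegaPow, ← Complex.exp_nat_mul, ← Complex.exp_add, stdOmega]
  push_cast
  ring_nf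

/-- **Away from `0`**, by Selberg's mean value. -/
theorem exists_charSum_sub_le : ∃ C : ℝ, 0 < C ∧ ∀ N : ℕ, 16 ≤ N → ∀ r : ℝ,
    |r| ≤ √(loglog N) →
      ‖charSum (Icc 1 N) (fun _ => (N : ℝ)⁻¹) (stdOmega N) r - charDens normPdf r‖ ≤
        |r| * ((C + r ^ 2) * Real.exp (-r ^ 2 / 4) / √(loglog N)) + C / loglog N ^ 3 := by
  obtain ⟨K, hK, hφ⟩ := exists_circle_lipschitz
  obtain ⟨C, hC, hM⟩ := SatheSelberg.exists_omegaSum_asymptotic 1 le_rfl
  refine ⟨K + 1728 * C, by positivity, fun N hN r hr => ?_⟩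
  obtain ⟨l, hl⟩ : ∃ l, l = loglog N := ⟨_, rfl⟩
  obtain ⟨L, hL⟩ : ∃ L, L = Real.log N := ⟨_, rfl⟩
  obtain ⟨t, ht⟩ : ∃ t, t = r / √l := ⟨_, rfl⟩
  obtain ⟨z, hz⟩ : ∃ z, z = Complex.exp ((t : ℂ) * Complex.I) := ⟨_, rfl⟩
  have hl1 : 1 ≤ l := hl ▸ one_le_loglog hN
  have hs : 0 < √l := Real.sqrt_pos.2 (by linarith)
  have hL1 : 1 ≤ L := hL ▸ SatheSelberg.one_le_log_natCast (by omega)
  have hlL : l = Real.log L := by rw [hl, hL]; rfl
  rw [← hl] at hr
  have ht1 : |t| ≤ 1 := by rwa [ht, abs_div, abs_of_pos hs, div_le_one hs]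
  have htr : l * t ^ 2 = r ^ 2 := by
    rw [ht, div_pow, Real.sq_sqrt (by linarith)]
    field_simp
  have hzn : ‖z‖ = 1 := hz ▸ Complex.norm_exp_ofReal_mul_I t
  have hN0 : (0 : ℝ) < N := Nat.cast_pos.2 (by omega)
  have hNc : (N : ℂ) ≠ 0 := Nat.cast_ne_zero.2 (by omega)
  have hE := hM z hzn.le N (by omega)
  rw [hzn, ← hL] at hE
  have hpow : (L : ℂ) ^ (z - 1) = Complex.exp ((l : ℂ) * (z - 1)) := by
    rw [Complex.cpow_def_of_ne_zero (Complex.ofReal_ne_zero.2 (by linarith)),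
      ← Complex.ofReal_log (by linarith), hlL]
  obtain ⟨hA, hAB⟩ := norm_saddle_sub_gauss_le (show 0 ≤ l by linarith) ht1
  rw [← hz, htr] at hA hAB
  obtain ⟨A, hAd⟩ : ∃ A, A = Complex.exp ((l : ℂ) * (z - 1 - (t : ℂ) * Complex.I)) := ⟨_, rfl⟩
  rw [← hAd] at hA hAB
  obtain ⟨E, hEd⟩ : ∃ E, E = omegaSum z N - z * selConst z * (N : ℂ) * (L : ℂ) ^ (z - 1) :=
    ⟨_, rfl⟩
  rw [← hEd] at hE
  obtain ⟨u, hu⟩ : ∃ u, u = Complex.exp (-((t * l : ℝ) : ℂ) * Complex.I) := ⟨_, rfl⟩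
  have hun : ‖u‖ = 1 := by
    rw [hu, Complex.norm_exp]
    simp
  have hAe : A = u * Complex.exp ((l : ℂ) * (z - 1)) := by
    rw [hAd, hu, ← Complex.exp_add]
    push_cast
    ring_nf
  rw [charSum_eq, charDens_normPdf, ← hl, ← ht, ← hz, ← hu,
    show (N : ℂ)⁻¹ * (u * omegaSum z N) - ((Real.exp (-r ^ 2 / 2) : ℝ) : ℂ) =
      (z * selConst z - 1) * A + (A - ((Real.exp (-r ^ 2 / 2) : ℝ) : ℂ)) +
        (N : ℂ)⁻¹ * (u * E) by
      rw [hEd, hpow, hAe]
      field_simp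
      ring]
  refine (norm_add_le _ _).trans (le_trans (add_le_add ((norm_add_le _ _).trans (add_le_add
    (le_of_eq_of_le (norm_mul _ _) (mul_le_mul (hz ▸ hφ t) hA (norm_nonneg _) (by positivity)))
      hAB)) (?_ : _ ≤ 1728 * C / l ^ 3)) ?_)
  · rw [norm_mul, norm_mul, norm_inv, Complex.norm_natCast, hun, one_mul,
      inv_mul_le_iff₀ hN0]
    refine hE.trans ?_
    have h := SatheSelberg.loglog_cube_le hN
    rw [← hL, ← hl] at h
    rw [show (1 : ℝ) - 5 / 4 = -(1 / 4) by norm_num]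
    calc C * N * L ^ (-(1 / 4) : ℝ) ≤ C * N * (1728 / l ^ 3) :=
          mul_le_mul_of_nonneg_left h (by positivity)
      _ = _ := by ring
  · have ht' : |t| = |r| / √l := by rw [ht, abs_div, abs_of_pos hs]
    rw [show l * |t| ^ 3 = |t| * r ^ 2 by rw [← htr, ← sq_abs t]; ring, ht']
    refine add_le_add ?_ (div_le_div_of_nonneg_right (by linarith) (by positivity))
    calc K * (|r| / √l) * Real.exp (-r ^ 2 / 4) + |r| / √l * r ^ 2 * Real.exp (-r ^ 2 / 4)
        = |r| * ((K + r ^ 2) * Real.exp (-r ^ 2 / 4) / √l) := by ring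
      _ ≤ _ := by
        gcongr
        linarith

/-- The second moment. -/
theorem exists_stdOmega_sq_le : ∃ C : ℝ, 0 < C ∧ ∀ᶠ N : ℕ in atTop,
    ∑ n ∈ Icc 1 N, stdOmega N n ^ 2 ≤ C * N := by
  obtain ⟨C, hC⟩ := ErdosKac.exists_turan
  refine ⟨|C| + 1, by positivity, ?_⟩
  filter_upwards [hC, eventually_ge_atTop 16] with N hN h16
  have hl := one_le_loglog h16
  simp only [stdOmega, div_pow, Real.sq_sqrt (show 0 ≤ loglog N by linarith)]
  rw [← Finset.sum_div, div_le_iff₀ (by linarith)]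
  refine hN.trans ?_
  have e : ErdosKac.loglog N = loglog N := rfl
  rw [e]
  gcongr
  linarith [le_abs_self C]

/-- **At `0`**, by Turán's inequality. -/
theorem exists_charSum_sub_le_abs : ∃ C : ℝ, 0 < C ∧ ∀ᶠ N : ℕ in atTop, ∀ r : ℝ, |r| ≤ 1 →
    ‖charSum (Icc 1 N) (fun _ => (N : ℝ)⁻¹) (stdOmega N) r - charDens normPdf r‖ ≤ |r| * C := by
  obtain ⟨C, hC, h⟩ := exists_stdOmega_sq_le
  refine ⟨C + 2, by positivity, ?_⟩
  filter_upwards [h, eventually_gt_atTop 0] with N hN h0 r hr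
  have hN0 : (0 : ℝ) < N := Nat.cast_pos.2 h0
  have hw : ∑ _n ∈ Icc 1 N, (((N : ℝ)⁻¹ : ℝ) : ℂ) = 1 := by
    rw [← Complex.ofReal_one, ← sum_inv_natCast h0, Complex.ofReal_sum]
  have e : charSum (Icc 1 N) (fun _ => (N : ℝ)⁻¹) (stdOmega N) r - 1 = ∑ n ∈ Icc 1 N,
      (((N : ℝ)⁻¹ : ℝ) : ℂ) * (Complex.exp (Complex.I * ((r * stdOmega N n : ℝ) : ℂ)) - 1) := by
    simp only [mul_sub_one]
    rw [sum_sub_distrib, hw, charSum]
    congr 1
    refine sum_congr rfl fun n _ => ?_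
    push_cast
    ring_nf
  have h1 : ‖charSum (Icc 1 N) (fun _ => (N : ℝ)⁻¹) (stdOmega N) r - 1‖ ≤ |r| * (C + 1) := by
    rw [e]
    refine (norm_sum_le _ _).trans ((sum_le_sum (g := fun n =>
      (N : ℝ)⁻¹ * (|r| * (1 + stdOmega N n ^ 2))) fun n _ => ?_).trans ?_)
    · rw [norm_mul, Complex.norm_real, Real.norm_eq_abs, abs_of_pos (inv_pos.2 hN0)]
      refine mul_le_mul_of_nonneg_left (Real.norm_exp_I_mul_ofReal_sub_one_le.trans ?_)
        (inv_pos.2 hN0).le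
      rw [Real.norm_eq_abs, abs_mul]
      refine mul_le_mul_of_nonneg_left ?_ (abs_nonneg r)
      nlinarith [sq_nonneg (|stdOmega N n| - 1 / 2), sq_abs (stdOmega N n)]
    · rw [← Finset.mul_sum, ← Finset.mul_sum, sum_add_distrib, sum_const, Nat.card_Icc,
        Nat.add_sub_cancel, nsmul_eq_mul, mul_one, inv_mul_le_iff₀ hN0]
      calc |r| * ((N : ℝ) + ∑ n ∈ Icc 1 N, stdOmega N n ^ 2) ≤ |r| * ((N : ℝ) + C * N) := by
            gcongr
        _ = _ := by ring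
  have h2 : ‖(1 : ℂ) - charDens normPdf r‖ ≤ |r| := by
    rw [charDens_normPdf, ← Complex.ofReal_one, ← Complex.ofReal_sub, Complex.norm_real,
      Real.norm_eq_abs, abs_of_nonneg (sub_nonneg.2 (Real.exp_le_one_iff.2 (by nlinarith)))]
    have := Real.add_one_le_exp (-r ^ 2 / 2)
    nlinarith [sq_abs r, abs_nonneg r]
  calc ‖charSum (Icc 1 N) (fun _ => (N : ℝ)⁻¹) (stdOmega N) r - charDens normPdf r‖
      = ‖(charSum (Icc 1 N) (fun _ => (N : ℝ)⁻¹) (stdOmega N) r - 1) +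
          (1 - charDens normPdf r)‖ := by rw [sub_add_sub_cancel]
    _ ≤ |r| * (C + 1) + |r| := (norm_add_le _ _).trans (add_le_add h1 h2)
    _ = _ := by ring

end FA.RenyiTuran

end
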