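import Mathlib.Analysis.SpecialFunctions.Trigonometric.Sinc
import Mathlib.Analysis.SpecialFunctions.Trigonometric.Bounds
import Mathlib.Analysis.SpecialFunctions.Integrals.Basic
import Mathlib.Analysis.SpecialFunctions.ImproperIntegrals
import Mathlib.MeasureTheory.Measure.Haar.NormedSpace
import Mathlib.MeasureTheory.Integral.Bochner.Set

/-!
# The kernel of Fejér

`T / (2 π) · sinc (T u / 2) ^ 2` is `(2 π)⁻¹ ∫ (1 - |s| / T) e ^ (-i s u)` over `[-T, T]`, it is
`O (1 / (T u ^ 2))` and its integral is at least `1/4`.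
-/

set_option autoImplicit false

noncomputable section

namespace FA.RenyiTuran

open MeasureTheory Set
open scoped Real

/-- Fejér's kernel. -/
def fejer (T u : ℝ) : ℝ := T / (2 * π) * Real.sinc (T * u / 2) ^ 2

/-- Its transform. -/
def tent (T s : ℝ) : ℝ := 1 - |s| / T

theorem continuous_fejer (T : ℝ) : Continuous (fejer T) :=
  continuous_const.mul ((Real.continuous_sinc.comp (by fun_prop)).pow 2)

theorem fejer_nonneg {T : ℝ} (hT : 0 < T) (u : ℝ) : 0 ≤ fejer T u := by
  rw [fejer]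
  positivity

theorem fejer_le {T : ℝ} (hT : 0 < T) (u : ℝ) : fejer T u ≤ T / (2 * π) := by
  refine mul_le_of_le_one_right (by positivity) ?_
  rw [sq_le_one_iff_abs_le_one]
  exact Real.abs_sinc_le_one _

theorem fejer_eq {T u : ℝ} (hT : T ≠ 0) (hu : u ≠ 0) :
    fejer T u = (1 - Real.cos (T * u)) / (π * T * u ^ 2) := by
  rw [fejer, Real.sinc_of_ne_zero (div_ne_zero (mul_ne_zero hT hu) two_ne_zero), div_pow,
    Real.sin_sq_eq_half_sub, show 2 * (T * u / 2) = T * u by ring]
  field_simp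

theorem fejer_mul_sq_le {T : ℝ} (hT : 0 < T) (u : ℝ) : fejer T u * (T * u ^ 2) ≤ 2 / π := by
  rcases eq_or_ne u 0 with rfl | hu
  · rw [zero_pow two_ne_zero, mul_zero, mul_zero]
    positivity
  · rw [fejer_eq hT.ne' hu, show (1 - Real.cos (T * u)) / (π * T * u ^ 2) * (T * u ^ 2) =
      (1 - Real.cos (T * u)) / π by field_simp]
    exact div_le_div_of_nonneg_right (by linarith [Real.neg_one_le_cos (T * u)]) Real.pi_pos.le

theorem fejer_le_inv {T : ℝ} (hT : 0 < T) (u : ℝ) :
    fejer T u ≤ 3 * T / π * (1 + (T * u) ^ 2)⁻¹ := by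
  rw [← div_eq_mul_inv, le_div_iff₀ (by positivity)]
  have h1 := fejer_le hT u
  have h2 := mul_le_mul_of_nonneg_left (fejer_mul_sq_le hT u) hT.le
  have h3 : T / (2 * π) + T * (2 / π) ≤ 3 * T / π := by
    rw [div_add' _ _ _ (by positivity), div_le_div_iff₀ (by positivity) Real.pi_pos]
    field_simp
    nlinarith [Real.pi_pos, mul_pos hT Real.pi_pos]
  linarith

/-- The tail, as a continuous majorant. -/
theorem fejer_le_tail {T h u : ℝ} (hT : 0 < T) (hh : 0 < h) (hu : h ≤ |u|) :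
    fejer T u ≤ 4 / (π * T) * (h ^ 2 + u ^ 2)⁻¹ := by
  rw [← div_eq_mul_inv, le_div_iff₀ (by positivity), div_mul_eq_div_div]
  rw [le_div_iff₀ hT]
  have h2 : h ^ 2 ≤ u ^ 2 := sq_abs u ▸ pow_le_pow_left₀ hh.le hu 2
  calc fejer T u * (h ^ 2 + u ^ 2) * T
      ≤ fejer T u * (u ^ 2 + u ^ 2) * T := by
        have := fejer_nonneg hT u
        gcongr
    _ = 2 * (fejer T u * (T * u ^ 2)) := by ring
    _ ≤ 2 * (2 / π) := mul_le_mul_of_nonneg_left (fejer_mul_sq_le hT u) zero_le_two
    _ = 4 / π := by ring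

theorem integrable_fejer {T : ℝ} (hT : 0 < T) : Integrable (fejer T) :=
  ((integrable_inv_one_add_sq.comp_mul_left' hT.ne').const_mul (3 * T / π)).mono'
    (continuous_fejer T).aestronglyMeasurable (Filter.Eventually.of_forall fun u => by
      rw [Real.norm_eq_abs, abs_of_nonneg (fejer_nonneg hT u)]
      exact fejer_le_inv hT u)

theorem integrable_inv_sq_add_sq {h : ℝ} (hh : 0 < h) :
    Integrable fun u : ℝ => (h ^ 2 + u ^ 2)⁻¹ := by
  refine ((integrable_inv_one_add_sq.comp_mul_left' (inv_ne_zero hh.ne')).const_mul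
    (1 / h ^ 2)).congr (Filter.Eventually.of_forall fun u => ?_)
  field_simp

theorem integral_inv_sq_add_sq {h : ℝ} (hh : 0 < h) :
    ∫ u : ℝ, (h ^ 2 + u ^ 2)⁻¹ = π / h := by
  rw [show (fun u : ℝ => (h ^ 2 + u ^ 2)⁻¹) = fun u => 1 / h ^ 2 * (1 + (u / h) ^ 2)⁻¹ from
    funext fun u => by field_simp, integral_const_mul,
    Measure.integral_comp_div (fun x => (1 + x ^ 2)⁻¹) h, integral_univ_inv_one_add_sq,
    abs_of_pos hh, smul_eq_mul]
  field_simp

/-- **The mass of the kernel.** -/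
theorem quarter_le_integral_fejer {T : ℝ} (hT : 0 < T) : 1 / 4 ≤ ∫ u : ℝ, fejer T u := by
  have hπ := Real.pi_pos
  have hlow : ∀ u, |T * u| ≤ π → u ≠ 0 → 2 * T / π ^ 3 ≤ fejer T u := fun u hu hu0 => by
    rw [fejer_eq hT.ne' hu0, le_div_iff₀ (by positivity)]
    have := Real.cos_le_one_sub_mul_cos_sq hu
    calc 2 * T / π ^ 3 * (π * T * u ^ 2) = 2 / π ^ 2 * (T * u) ^ 2 := by field_simp
      _ ≤ _ := by linarith
  have h1 : 2 * T / π ^ 3 * (2 * (π / T)) ≤ ∫ u in Ioc (-(π / T)) (π / T), fejer T u := by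
    refine le_of_eq_of_le ?_ (setIntegral_mono_ae_restrict (integrableOn_const (by simp))
      (integrable_fejer hT).integrableOn (f := fun _ => 2 * T / π ^ 3) ?_)
    · rw [setIntegral_const, Real.volume_real_Ioc_of_le (by linarith [div_pos hπ hT]), smul_eq_mul]
      ring
    · refine (ae_restrict_iff' measurableSet_Ioc).2
        ((Measure.ae_ne volume (0 : ℝ)).mono fun u hu hI => hlow u ?_ hu)
      rw [abs_mul, abs_of_pos hT, ← le_div_iff₀' hT]
      exact abs_le.2 ⟨hI.1.le, hI.2⟩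
  refine le_trans ?_ (h1.trans (setIntegral_le_integral (integrable_fejer hT)
    (Filter.Eventually.of_forall (fejer_nonneg hT))))
  rw [show 2 * T / π ^ 3 * (2 * (π / T)) = 4 / π ^ 2 by field_simp; ring,
    div_le_div_iff₀ (by norm_num) (by positivity)]
  nlinarith [Real.pi_le_four]

/-- `s ↦ (1 - k s) e ^ (a s)` has an antiderivative. -/
theorem integral_tent_exp (k p q : ℝ) {a : ℂ} (ha : a ≠ 0) :
    ∫ s in p..q, (1 - (k : ℂ) * (s : ℂ)) * Complex.exp (a * (s : ℂ)) =
      ((1 - (k : ℂ) * q) / a + (k : ℂ) / a ^ 2) * Complex.exp (a * q) -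
        ((1 - (k : ℂ) * p) / a + (k : ℂ) / a ^ 2) * Complex.exp (a * p) := by
  refine intervalIntegral.integral_eq_sub_of_hasDerivAt
    (f := fun s : ℝ => ((1 - (k : ℂ) * s) / a + (k : ℂ) / a ^ 2) * Complex.exp (a * s))
    (fun s _ => ?_) (Continuous.intervalIntegrable (by fun_prop) _ _)
  have hs : HasDerivAt (fun x : ℝ => (x : ℂ)) 1 s := Complex.ofRealCLM.hasDerivAt
  refine (((((hs.const_mul (k : ℂ)).const_sub 1).div_const a).add_const ((k : ℂ) / a ^ 2)).mul
    (hs.const_mul a).cexp).congr_deriv ?_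
  field_simp
  ring

/-- **The kernel is the transform of the tent.** -/
theorem integral_tent {T : ℝ} (hT : 0 < T) (u : ℝ) :
    ∫ s in (-T)..T, (tent T s : ℂ) * Complex.exp (-((u : ℂ) * Complex.I) * (s : ℂ)) =
      ((2 * π * fejer T u : ℝ) : ℂ) := by
  have hTc : (T : ℂ) ≠ 0 := Complex.ofReal_ne_zero.2 hT.ne'
  have hc : Continuous fun s : ℝ =>
      (tent T s : ℂ) * Complex.exp (-((u : ℂ) * Complex.I) * (s : ℂ)) := by
    unfold tent
    fun_prop
  rw [← intervalIntegral.integral_add_adjacent_intervals (b := 0) (hc.intervalIntegrable _ _)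
    (hc.intervalIntegrable _ _),
    intervalIntegral.integral_congr (g := fun s : ℝ => (1 - ((-T⁻¹ : ℝ) : ℂ) * (s : ℂ)) *
      Complex.exp (-((u : ℂ) * Complex.I) * (s : ℂ))) (fun s hs => ?_),
    intervalIntegral.integral_congr (a := (0 : ℝ)) (g := fun s : ℝ =>
      (1 - ((T⁻¹ : ℝ) : ℂ) * (s : ℂ)) *
        Complex.exp (-((u : ℂ) * Complex.I) * (s : ℂ))) (fun s hs => ?_)]
  rotate_left
  · rw [uIcc_of_le hT.le] at hs
    simp only [tent, abs_of_nonneg hs.1]
    push_cast
    ring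
  · rw [uIcc_of_le (by linarith)] at hs
    simp only [tent, abs_of_nonpos hs.2]
    push_cast
    ring
  rcases eq_or_ne u 0 with rfl | hu
  · simp only [Complex.ofReal_zero, zero_mul, neg_zero, Complex.exp_zero, mul_one]
    have e : ∀ k p q : ℝ, ∫ s in p..q, (1 - (k : ℂ) * (s : ℂ)) =
        ((q - p - k * ((q ^ 2 - p ^ 2) / 2) : ℝ) : ℂ) := fun k p q => by
      rw [← show ∫ s in p..q, (1 - k * s) = q - p - k * ((q ^ 2 - p ^ 2) / 2) by
        rw [intervalIntegral.integral_sub intervalIntegrable_const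
          (Continuous.intervalIntegrable (by fun_prop) _ _), intervalIntegral.integral_const_mul,
          integral_id, intervalIntegral.integral_const, smul_eq_mul, mul_one],
        ← intervalIntegral.integral_ofReal]
      push_cast
      rfl
    rw [e, e, ← Complex.ofReal_add]
    congr 1
    rw [fejer, mul_zero, zero_div, Real.sinc_zero]
    field_simp
    ring
  · obtain ⟨a, ha⟩ : ∃ a : ℂ, a = -((u : ℂ) * Complex.I) := ⟨_, rfl⟩
    have ha0 : a ≠ 0 := by
      rw [ha]
      exact neg_ne_zero.2 (mul_ne_zero (Complex.ofReal_ne_zero.2 hu) Complex.I_ne_zero)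
    rw [← ha, integral_tent_exp _ _ _ ha0, integral_tent_exp _ _ _ ha0, fejer_eq hT.ne' hu]
    have h2 : Complex.exp (a * (T : ℂ)) + Complex.exp (a * ((-T : ℝ) : ℂ)) =
        2 * ((Real.cos (T * u) : ℝ) : ℂ) := by
      rw [Complex.ofReal_cos, Complex.two_cos, ha, add_comm]
      congr 2 <;> push_cast <;> ring
    have hu2 : a ^ 2 = -((u : ℂ) ^ 2) := by
      rw [ha, neg_sq, mul_pow, Complex.I_sq]
      ring
    calc _ = ((T : ℂ)⁻¹ / a ^ 2) * (Complex.exp (a * (T : ℂ)) +
          Complex.exp (a * ((-T : ℝ) : ℂ)) - 2) := by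
            push_cast
            simp only [mul_zero, Complex.exp_zero]
            field_simp
            ring
      _ = _ := by
            rw [h2, hu2]
            have : (u : ℂ) ≠ 0 := Complex.ofReal_ne_zero.2 hu
            have : (π : ℂ) ≠ 0 := Complex.ofReal_ne_zero.2 Real.pi_ne_zero
            push_cast
            field_simp
            ring

theorem tent_mem {T s : ℝ} (hT : 0 < T) (hs : s ∈ Icc (-T) T) : 0 ≤ tent T s ∧ tent T s ≤ 1 := by
  have h1 : |s| / T ≤ 1 := (div_le_one hT).2 (abs_le.2 hs)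
  have h2 : 0 ≤ |s| / T := by positivity
  constructor <;> simp only [tent] <;> linarith

end FA.RenyiTuran

end
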