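import Fermat.Agent.RenyiTuran.CharFun

/-!
# The theorem of Rényi and Turán

The distribution of `(ω n - l) / √l` over `n ≤ N`, `l = log log N`, is within `O (1 / √l)` of the
normal one, and at distance at least `1 / (160 √l)` from it.
-/

set_option autoImplicit false

noncomputable section

namespace FA.RenyiTuran

open MeasureTheory Finset Filter
open FA.SatheSelberg (loglog selConst one_le_loglog omegaScale omegaCount)
open scoped Real Topology

theorem tendsto_loglog_atTop : Tendsto loglog atTop atTop :=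
  Real.tendsto_log_atTop.comp (Real.tendsto_log_atTop.comp tendsto_natCast_atTop_atTop)

theorem loglog_le_natCast {N : ℕ} (hN : 16 ≤ N) : loglog N ≤ N :=
  (Real.log_le_self (zero_le_one.trans (SatheSelberg.one_le_log_natCast (by omega)))).trans
    (Real.log_le_self (Nat.cast_nonneg N))

theorem sq_mul_exp_le (K r : ℝ) (hK : 0 ≤ K) :
    (K + r ^ 2) * Real.exp (-r ^ 2 / 4) ≤ (K + 8) * Real.exp (-(1 / 8) * r ^ 2) := by
  have h := Real.add_one_le_exp (r ^ 2 / 8)
  have h1 : K + r ^ 2 ≤ (K + 8) * Real.exp (r ^ 2 / 8) := by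
    refine le_trans ?_ (mul_le_mul_of_nonneg_left h (by positivity))
    have : 0 ≤ K * (r ^ 2 / 8) := by positivity
    linarith
  refine (mul_le_mul_of_nonneg_right h1 (Real.exp_pos _).le).trans (le_of_eq ?_)
  rw [mul_assoc, ← Real.exp_add]
  ring_nf

/-- **For all large `N`.** -/
theorem exists_renyi_turan_eventually : ∃ C : ℝ, 0 < C ∧ ∀ᶠ N : ℕ in atTop, ∀ x : ℝ,
    |omegaDist N x - densDist normPdf x| ≤ C / √(loglog N) := by
  obtain ⟨K, hK, hfar⟩ := exists_charSum_sub_le
  obtain ⟨D, hD, hnear⟩ := exists_charSum_sub_le_abs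
  refine ⟨6 * ((K + 8) * √(π / (1 / 8)) + 2 * D * π + 2 * K) + 320, by positivity, ?_⟩
  filter_upwards [hnear, eventually_ge_atTop 16] with N hN h16 x
  obtain ⟨l, hl⟩ : ∃ l, l = loglog N := ⟨_, rfl⟩
  have hl1 : 1 ≤ l := hl ▸ one_le_loglog h16
  have hl0 : 0 ≤ l := zero_le_one.trans hl1
  rw [← hl]
  obtain ⟨s, hs⟩ : ∃ s, s = √l := ⟨_, rfl⟩
  have hs1 : 1 ≤ s := hs ▸ Real.one_le_sqrt.2 hl1
  have hs2 : s ^ 2 = l := hs ▸ Real.sq_sqrt hl0
  have hsl : s ≤ l := hs ▸ Real.sqrt_le_self_iff.2 (Or.inr hl1)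
  obtain ⟨B1, hB1⟩ : ∃ B1 : ℝ → ℝ, B1 = fun r =>
      (K + 8) / s * Real.exp (-(1 / 8) * r ^ 2) := ⟨_, rfl⟩
  obtain ⟨B2, hB2⟩ : ∃ B2 : ℝ → ℝ, B2 = fun r => 2 * D * (1 + (s * r) ^ 2)⁻¹ := ⟨_, rfl⟩
  have hi1 : Integrable B1 := hB1 ▸ (integrable_exp_neg_mul_sq (by norm_num)).const_mul _
  have hi2 : Integrable B2 :=
    hB2 ▸ (integrable_inv_one_add_sq.comp_mul_left' (by linarith : s ≠ 0)).const_mul _
  have hn1 : ∀ r, 0 ≤ B1 r := fun r => by rw [hB1]; positivity
  have hn2 : ∀ r, 0 ≤ B2 r := fun r => by rw [hB2]; positivity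
  have hle : ∀ r, |r| ≤ s → ‖charSum (Icc 1 N) (fun _ => (N : ℝ)⁻¹) (stdOmega N) r -
      charDens normPdf r‖ ≤ |r| * (B1 r + B2 r + s * K / l ^ 3) := fun r hr => by
    have h3 : 0 ≤ |r| * (s * K / l ^ 3) := by positivity
    have h1' : 0 ≤ |r| * B1 r := mul_nonneg (abs_nonneg r) (hn1 r)
    have h2' : 0 ≤ |r| * B2 r := mul_nonneg (abs_nonneg r) (hn2 r)
    rcases le_or_gt (|r| * s) 1 with hsr | hsr
    · refine (hN r ((le_mul_of_one_le_right (abs_nonneg r) hs1).trans hsr)).trans ?_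
      have h2 : |r| * D ≤ |r| * B2 r := by
        refine mul_le_mul_of_nonneg_left ?_ (abs_nonneg r)
        rw [hB2]
        simp only
        rw [← div_eq_mul_inv, le_div_iff₀ (by positivity)]
        have : (s * r) ^ 2 ≤ 1 := by
          rw [sq_le_one_iff_abs_le_one, abs_mul, abs_of_pos (by linarith : 0 < s), mul_comm]
          exact hsr
        nlinarith
      linarith
    · refine (hfar N h16 r (by rw [← hl, ← hs]; exact hr)).trans ?_
      rw [← hl, ← hs]
      have h1 : |r| * ((K + r ^ 2) * Real.exp (-r ^ 2 / 4) / s) ≤ |r| * B1 r := by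
        refine mul_le_mul_of_nonneg_left ?_ (abs_nonneg r)
        rw [hB1]
        exact (div_le_div_of_nonneg_right (sq_mul_exp_le K r hK.le) (by linarith)).trans
          (le_of_eq (by ring))
      have h2 : K / l ^ 3 ≤ |r| * (s * K / l ^ 3) := by
        calc K / l ^ 3 = 1 * (K / l ^ 3) := (one_mul _).symm
          _ ≤ |r| * s * (K / l ^ 3) := by gcongr
          _ = _ := by ring
      linarith
  have hBi : IntervalIntegrable (fun r => B1 r + B2 r + s * K / l ^ 3) volume (-s) s :=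
    (hi1.intervalIntegrable.add hi2.intervalIntegrable).add intervalIntegrable_const
  refine (esseen_smoothing_le (s := Icc 1 N) (w := fun _ => (N : ℝ)⁻¹) (X := stdOmega N)
    (fun n _ => by positivity) (sum_inv_natCast (by omega)) densityLE_normPdf one_pos
    (by linarith : (0 : ℝ) < s) hBi (fun r => add_nonneg (add_nonneg (hn1 r) (hn2 r))
      (by positivity)) hle x).trans ?_
  have h1 : ∫ r in (-s)..s, B1 r ≤ (K + 8) * √(π / (1 / 8)) / s := by
    rw [intervalIntegral.integral_of_le (by linarith)]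
    refine (setIntegral_le_integral hi1 (Eventually.of_forall hn1)).trans (le_of_eq ?_)
    rw [hB1, integral_const_mul, integral_gaussian]
    ring
  have h2 : ∫ r in (-s)..s, B2 r ≤ 2 * D * π / s := by
    rw [intervalIntegral.integral_of_le (by linarith)]
    refine (setIntegral_le_integral hi2 (Eventually.of_forall hn2)).trans (le_of_eq ?_)
    rw [hB2, integral_const_mul, Measure.integral_comp_mul_left (fun r => (1 + r ^ 2)⁻¹) s,
      integral_univ_inv_one_add_sq, abs_of_pos (by positivity), smul_eq_mul]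
    ring
  have h3 : ∫ _r in (-s)..s, s * K / l ^ 3 ≤ 2 * K / s := by
    rw [intervalIntegral.integral_const, smul_eq_mul]
    calc (s - -s) * (s * K / l ^ 3) = 2 * K * (s ^ 2 / l ^ 3) := by ring
      _ ≤ 2 * K * (1 / s) := by
          refine mul_le_mul_of_nonneg_left ?_ (by positivity)
          rw [hs2, div_le_div_iff₀ (by positivity) (by linarith)]
          calc l * s ≤ l * l := mul_le_mul_of_nonneg_left hsl (by linarith)
            _ ≤ 1 * l ^ 3 := by nlinarith
      _ = _ := by ring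
  rw [intervalIntegral.integral_add (hi1.intervalIntegrable.add hi2.intervalIntegrable)
    intervalIntegrable_const, intervalIntegral.integral_add hi1.intervalIntegrable
    hi2.intervalIntegrable, ← hs]
  simp only [mul_one]
  rw [show (6 * ((K + 8) * √(π / (1 / 8)) + 2 * D * π + 2 * K) + 320) / s =
    6 * ((K + 8) * √(π / (1 / 8)) / s + 2 * D * π / s + 2 * K / s) + 320 / s by ring]
  linarith

/-- **The theorem of Rényi and Turán.** -/
theorem exists_renyi_turan : ∃ C : ℝ, 0 < C ∧ ∀ N : ℕ, 16 ≤ N → ∀ x : ℝ,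
    |omegaDist N x - densDist normPdf x| ≤ C / √(loglog N) := by
  obtain ⟨C, hC, h⟩ := exists_renyi_turan_eventually
  obtain ⟨N₀, hN₀⟩ := eventually_atTop.1 h
  refine ⟨C + √(N₀ : ℝ), by positivity, fun N hN x => ?_⟩
  have hl := one_le_loglog hN
  have hs : 0 < √(loglog N) := Real.sqrt_pos.2 (by linarith)
  rcases le_or_gt N₀ N with hge | hlt
  · exact (hN₀ N hge x).trans (div_le_div_of_nonneg_right
      (le_add_of_nonneg_right (Real.sqrt_nonneg _)) hs.le)
  · refine (abs_distGap_le (fun n _ => by positivity) (sum_inv_natCast (by omega))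
      densityLE_normPdf x).trans ?_
    rw [one_le_div hs]
    refine le_trans (Real.sqrt_le_sqrt ((loglog_le_natCast hN).trans ?_))
      (le_add_of_nonneg_left hC.le)
    exact_mod_cast hlt.le

/-- **One value of `ω` has mass `≫ 1 / √l`.** -/
theorem eventually_jump_le : ∀ᶠ N : ℕ in atTop, ∃ k : ℕ,
    1 / (40 * √(loglog N)) ≤ (omegaCount N k : ℝ) / N := by
  obtain ⟨C, hC, hS⟩ := SatheSelberg.exists_sathe_selberg 3
  have hlim : Tendsto (fun N : ℕ => (selConst (((⌊loglog N⌋₊ : ℕ) : ℝ) / loglog N : ℝ)).re -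
      3 * C * (1 / loglog N)) atTop (𝓝 1) := by
    have h1 : Tendsto (fun N : ℕ => ((⌊loglog N⌋₊ : ℕ) : ℝ) / loglog N) atTop (𝓝 1) :=
      tendsto_nat_floor_div_atTop.comp tendsto_loglog_atTop
    have h2 := ((Complex.continuous_re.comp (SatheSelberg.differentiable_selConst.continuous.comp
      Complex.continuous_ofReal)).tendsto 1).comp h1
    have h3 := ((tendsto_const_nhds (x := (1 : ℝ))).div_atTop tendsto_loglog_atTop).const_mul
      (3 * C)
    have h4 : (selConst ((1 : ℝ) : ℂ)).re = 1 := by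
      rw [SatheSelberg.selConst_ofReal, SatheSelberg.selbergProduct_one,
        show (1 : ℝ) + 1 = 2 by norm_num, Real.Gamma_two, div_one, Complex.ofReal_re]
    have h5 := h2.sub h3
    simp only [Function.comp_apply, h4, mul_zero, sub_zero] at h5
    exact h5
  filter_upwards [hlim.eventually (eventually_ge_nhds (show (3 / 4 : ℝ) < 1 by norm_num)),
    eventually_ge_atTop 16] with N hφ hN
  obtain ⟨l, hl⟩ : ∃ l, l = loglog N := ⟨_, rfl⟩
  obtain ⟨L, hL⟩ : ∃ L, L = Real.log N := ⟨_, rfl⟩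
  obtain ⟨m, hm⟩ : ∃ m, m = ⌊l⌋₊ := ⟨_, rfl⟩
  rw [← hl, ← hm] at hφ
  rw [← hl]
  have hl1 : 1 ≤ l := hl ▸ one_le_loglog hN
  have hm1 : 1 ≤ m := hm ▸ Nat.one_le_floor_iff l |>.2 hl1
  have hml : (m : ℝ) ≤ l := hm ▸ Nat.floor_le (zero_le_one.trans hl1)
  have hlm : l - 1 ≤ m := by
    have := Nat.lt_floor_add_one l
    rw [← hm] at this
    linarith
  have hL1 : 1 ≤ L := hL ▸ SatheSelberg.one_le_log_natCast (by omega)
  have hs : 0 < √l := Real.sqrt_pos.2 (by linarith)
  have hN0 : (0 : ℝ) < N := Nat.cast_pos.2 (by omega)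
  refine ⟨m + 1, ?_⟩
  have h := hS N hN (m + 1) (by omega) (by rw [← hl]; push_cast; linarith)
  rw [Nat.add_sub_cancel, ← hl] at h
  obtain ⟨S, hSd⟩ : ∃ S, S = omegaScale N m := ⟨_, rfl⟩
  rw [← hSd] at h
  have hS0 : 0 ≤ S := by
    rw [hSd, omegaScale, ← hL, ← hl]
    positivity
  have hk : ((m + 1 : ℕ) : ℝ) / l ^ 2 ≤ 3 * (1 / l) := by
    rw [div_le_iff₀ (by positivity), show 3 * (1 / l) * l ^ 2 = 3 * l by field_simp]
    push_cast
    linarith
  have h1 : S * (3 / 4) ≤ (omegaCount N (m + 1) : ℝ) := by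
    have h2 := mul_le_mul_of_nonneg_left hφ hS0
    have h3 := mul_le_mul_of_nonneg_left (mul_le_mul_of_nonneg_left hk hS0) hC.le
    have h4 := (abs_le.1 h).1
    linarith
  have h2 : (N : ℝ) / (9 * √l) ≤ S := by
    have hst := SatheSelberg.exp_le_pow_div_factorial hm1
    have hpow : (m : ℝ) ^ m / m.factorial ≤ l ^ m / m.factorial := by
      gcongr
    have he : L ≤ Real.exp m * 3 := by
      have hLe : L = Real.exp (l - 1) * Real.exp 1 := by
        rw [← Real.exp_add, sub_add_cancel, hl, loglog, ← hL, Real.exp_log (by linarith)]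
      rw [hLe]
      exact mul_le_mul (Real.exp_le_exp.2 hlm) (by linarith [Real.exp_one_lt_d9])
        (Real.exp_pos 1).le (Real.exp_pos _).le
    have h5 : L ≤ l ^ m / m.factorial * (9 * √l) := by
      refine he.trans ?_
      calc Real.exp m * 3 ≤ 3 * √(m : ℝ) * ((m : ℝ) ^ m / m.factorial) * 3 := by gcongr
        _ ≤ 3 * √l * (l ^ m / m.factorial) * 3 := by gcongr
        _ = _ := by ring
    rw [hSd, omegaScale, ← hL, ← hl, div_le_iff₀ (by positivity)]
    calc (N : ℝ) = N / L * L := by field_simp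
      _ ≤ N / L * (l ^ m / m.factorial * (9 * √l)) :=
          mul_le_mul_of_nonneg_left h5 (by positivity)
      _ = _ := by ring
  rw [div_le_div_iff₀ (by positivity) hN0]
  have h6 : (N : ℝ) ≤ S * (9 * √l) := (div_le_iff₀ (by positivity)).1 h2
  nlinarith

/-- **The order `1 / √l` is attained.** -/
theorem eventually_exists_le_distance : ∀ᶠ N : ℕ in atTop, ∃ x : ℝ,
    1 / (160 * √(loglog N)) ≤ |omegaDist N x - densDist normPdf x| := by
  filter_upwards [eventually_jump_le, eventually_ge_atTop 16] with N ⟨k, hk⟩ hN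
  obtain ⟨j, hj⟩ : ∃ j, j = 1 / (40 * √(loglog N)) := ⟨_, rfl⟩
  have hl := one_le_loglog hN
  have hj0 : 0 < j := hj ▸ by positivity
  rw [← hj] at hk
  obtain ⟨x, hx⟩ : ∃ x, x = ((k : ℝ) - loglog N) / √(loglog N) := ⟨_, rfl⟩
  have hstep : j ≤ omegaDist N x - omegaDist N (x - j / 2) := by
    refine hk.trans ?_
    rw [omegaDist_eq, omegaDist_eq, div_sub_div_same]
    refine div_le_div_of_nonneg_right ?_ (Nat.cast_nonneg N)
    rw [le_sub_iff_add_le, omegaCount]
    norm_cast
    rw [← card_union_of_disjoint (disjoint_filter.2 fun n _ h1 h2 => ?_)]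
    · refine card_le_card fun n hn => ?_
      rw [mem_union, mem_filter, mem_filter] at hn
      rcases hn with ⟨hn, h⟩ | ⟨hn, h⟩
      · exact mem_filter.2 ⟨hn, le_of_eq (by rw [stdOmega, h, hx])⟩
      · exact mem_filter.2 ⟨hn, h.trans (by linarith)⟩
    · rw [stdOmega, h1, ← hx] at h2
      linarith
  have hdens := (densDist_lipschitz densityLE_normPdf (show x - j / 2 ≤ x by linarith)).2
  rw [show 1 / (160 * √(loglog N)) = j / 4 by rw [hj]; ring]
  by_contra hcon
  push Not at hcon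
  have ha := abs_lt.1 (hcon x)
  have hb := abs_lt.1 (hcon (x - j / 2))
  linarith

end FA.RenyiTuran

end
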